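/-
Atlases of transition units on open subsets: isomorphisms, pullback, descent along open immersions.
-/
import Fermat.Agent.Jacobian.Line.Pullback

set_option autoImplicit false
set_option linter.unusedVariables false

universe u

open CategoryTheory AlgebraicGeometry TopologicalSpace Opposite

noncomputable section

namespace Fermat.Agent.Jacobian

section units

variable {X Y : Scheme.{u}}

theorem appU_bijective (f : Y ⟶ X) [IsOpenImmersion f] {V : X.Opens} (hV : V ≤ f.opensRange) :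
    Function.Bijective (appU f (le_refl (f ⁻¹ᵁ V))) := by
  haveI := f.isIso_app V hV
  have hb : Function.Bijective (f.appLE V (f ⁻¹ᵁ V) le_rfl).hom := by
    rw [Scheme.Hom.appLE_eq_app]
    exact ConcreteCategory.bijective_of_isIso (f.app V)
  exact (Units.mapEquiv (RingEquiv.ofBijective _ hb).toMulEquiv).bijective

theorem appU_mono (f : Y ⟶ X) {U : X.Opens} {V : Y.Opens} (e : V ≤ f ⁻¹ᵁ U) (a : Γ(X, U)ˣ) :
    appU f e a = resU e (appU f (le_refl (f ⁻¹ᵁ U)) a) :=
  (resU_appU f (le_refl _) e a).symm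

theorem appU_injective_of_eq (f : Y ⟶ X) [IsOpenImmersion f] {U : X.Opens} {V : Y.Opens}
    (e : V ≤ f ⁻¹ᵁ U) (hU : U ≤ f.opensRange) (h : f ⁻¹ᵁ U ≤ V) :
    Function.Injective (appU f e) := by
  intro a b hab
  apply (appU_bijective f hU).1
  have := congrArg (resU h) hab
  rwa [resU_appU, resU_appU] at this

/-- The inverse of `appU` along an open immersion. -/
def liftU (f : Y ⟶ X) [IsOpenImmersion f] {V : X.Opens} (hV : V ≤ f.opensRange) :
    Γ(Y, f ⁻¹ᵁ V)ˣ ≃* Γ(X, V)ˣ :=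
  (MulEquiv.ofBijective (appU f (le_refl (f ⁻¹ᵁ V))) (appU_bijective f hV)).symm

theorem appU_liftU (f : Y ⟶ X) [IsOpenImmersion f] {V : X.Opens} (hV : V ≤ f.opensRange)
    (a : Γ(Y, f ⁻¹ᵁ V)ˣ) : appU f (le_refl (f ⁻¹ᵁ V)) (liftU f hV a) = a :=
  (MulEquiv.ofBijective _ (appU_bijective f hV)).apply_symm_apply a

end units

/-- Transition units for an arbitrary family of opens. -/
structure Atlas (X : Scheme.{u}) where
  ι : Type u
  U : ι → X.Opens
  g : ∀ (a b : ι) (V : X.Opens), V ≤ U a → V ≤ U b → Γ(X, V)ˣ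
  g_res : ∀ (a b : ι) {V W : X.Opens} (h : W ≤ V) (ha : V ≤ U a) (hb : V ≤ U b),
    resU h (g a b V ha hb) = g a b W (h.trans ha) (h.trans hb)
  g_mul : ∀ (a b c : ι) (V : X.Opens) (ha : V ≤ U a) (hb : V ≤ U b) (hc : V ≤ U c),
    g a b V ha hb * g b c V hb hc = g a c V ha hc

namespace Atlas

variable {X Y Z : Scheme.{u}}

theorem g_self (A : Atlas X) (a : A.ι) (V : X.Opens) (h h' : V ≤ A.U a) : A.g a a V h h' = 1 := by
  simpa using A.g_mul a a a V h h' h'

/-- The atlas covers `W`. -/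
def Covers (A : Atlas X) (W : X.Opens) : Prop := W ≤ iSup A.U

/-- The atlas of a line system. -/
def ofSys (L : LineSys X) : Atlas X where
  ι := X
  U := L.U
  g := L.g
  g_res := L.g_res
  g_mul := L.g_mul

theorem covers_ofSys (L : LineSys X) (W : X.Opens) : (ofSys L).Covers W :=
  fun p _ => Opens.mem_iSup.mpr ⟨p, L.mem p⟩

/-- The atlas with one frame. -/
def unit (X : Scheme.{u}) : Atlas X where
  ι := PUnit
  U _ := ⊤
  g _ _ _ _ _ := 1
  g_res _ _ _ _ _ _ _ := map_one _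
  g_mul _ _ _ _ _ _ _ := one_mul _

theorem covers_unit (X : Scheme.{u}) (W : X.Opens) : (unit X).Covers W :=
  fun p _ => Opens.mem_iSup.mpr ⟨PUnit.unit, trivial⟩

/-- Pullback, keeping the index type. -/
def pull (f : Y ⟶ X) (A : Atlas X) : Atlas Y where
  ι := A.ι
  U a := f ⁻¹ᵁ A.U a
  g a b V ha hb := appU f (show V ≤ f ⁻¹ᵁ (A.U a ⊓ A.U b) from fun _ h => ⟨ha h, hb h⟩)
    (A.g a b _ inf_le_left inf_le_right)
  g_res a b V W i ha hb := resU_appU f _ i _
  g_mul a b c V ha hb hc := by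
    let T := A.U a ⊓ A.U b ⊓ A.U c
    have hT : V ≤ f ⁻¹ᵁ T := fun _ h => ⟨⟨ha h, hb h⟩, hc h⟩
    have key : ∀ (p q : A.ι) (hp : T ≤ A.U p) (hq : T ≤ A.U q)
        (e : V ≤ f ⁻¹ᵁ (A.U p ⊓ A.U q)),
        appU f e (A.g p q _ inf_le_left inf_le_right) = appU f hT (A.g p q T hp hq) := by
      intro p q hp hq e
      rw [← A.g_res p q (le_inf hp hq) inf_le_left inf_le_right, appU_resU]
    rw [key a b (inf_le_left.trans inf_le_left) (inf_le_left.trans inf_le_right),
      key b c (inf_le_left.trans inf_le_right) inf_le_right,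
      key a c (inf_le_left.trans inf_le_left) inf_le_right, ← map_mul, A.g_mul]

theorem pull_g (f : Y ⟶ X) (A : Atlas X) (a b : A.ι) (V : Y.Opens) (T : X.Opens)
    (ha : V ≤ (A.pull f).U a) (hb : V ≤ (A.pull f).U b) (hTa : T ≤ A.U a) (hTb : T ≤ A.U b)
    (hT : V ≤ f ⁻¹ᵁ T) : (A.pull f).g a b V ha hb = appU f hT (A.g a b T hTa hTb) := by
  rw [← A.g_res a b (le_inf hTa hTb) inf_le_left inf_le_right, appU_resU]
  rfl

theorem covers_pull (f : Y ⟶ X) {A : Atlas X} {W : X.Opens} {W' : Y.Opens} (hA : A.Covers W)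
    (h : W' ≤ f ⁻¹ᵁ W) : (A.pull f).Covers W' := fun p hp => by
  obtain ⟨a, ha⟩ := Opens.mem_iSup.mp (hA (h hp))
  exact Opens.mem_iSup.mpr ⟨a, ha⟩

/-- An isomorphism over `W`. -/
@[ext]
structure IsoOn (W : X.Opens) (A B : Atlas X) where
  h : ∀ (a : A.ι) (b : B.ι) (V : X.Opens), V ≤ W → V ≤ A.U a → V ≤ B.U b → Γ(X, V)ˣ
  h_res : ∀ (a : A.ι) (b : B.ι) {V V' : X.Opens} (i : V' ≤ V) (hW : V ≤ W) (ha : V ≤ A.U a)
    (hb : V ≤ B.U b), resU i (h a b V hW ha hb) = h a b V' (i.trans hW) (i.trans ha) (i.trans hb)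
  g_h : ∀ (a a' : A.ι) (b : B.ι) (V : X.Opens) (hW : V ≤ W) (ha : V ≤ A.U a) (ha' : V ≤ A.U a')
    (hb : V ≤ B.U b), A.g a a' V ha ha' * h a' b V hW ha' hb = h a b V hW ha hb
  h_g : ∀ (a : A.ι) (b b' : B.ι) (V : X.Opens) (hW : V ≤ W) (ha : V ≤ A.U a) (hb : V ≤ B.U b)
    (hb' : V ≤ B.U b'), h a b V hW ha hb * B.g b b' V hb hb' = h a b' V hW ha hb'

namespace IsoOn

variable {W : X.Opens} {A B C : Atlas X}

/-- The identity. -/
def refl (W : X.Opens) (A : Atlas X) : IsoOn W A A where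
  h a b V _ ha hb := A.g a b V ha hb
  h_res a b V V' i hW ha hb := A.g_res a b i ha hb
  g_h a a' b V hW ha ha' hb := A.g_mul ..
  h_g a b b' V hW ha hb hb' := A.g_mul ..

/-- The inverse. -/
def symm (e : IsoOn W A B) : IsoOn W B A where
  h b a V hW hb ha := (e.h a b V hW ha hb)⁻¹
  h_res b a V V' i hW hb ha := (map_inv _ _).trans (congrArg _ (e.h_res a b i hW ha hb))
  g_h b b' a V hW hb hb' ha := by
    rw [← e.h_g a b b' V hW ha hb hb', mul_inv_rev, ← mul_assoc, mul_inv_cancel, one_mul]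
  h_g b a a' V hW hb ha ha' := by
    rw [← e.g_h a a' b V hW ha ha' hb, mul_inv_rev, mul_assoc, inv_mul_cancel, mul_one]

/-- Restriction to a smaller open. -/
def restrict {W' : X.Opens} (i : W' ≤ W) (e : IsoOn W A B) : IsoOn W' A B where
  h a b V hW ha hb := e.h a b V (hW.trans i) ha hb
  h_res a b V V' j hW ha hb := e.h_res a b j _ ha hb
  g_h a a' b V hW ha ha' hb := e.g_h ..
  h_g a b b' V hW ha hb hb' := e.h_g ..

/-- Rescaling by a unit. -/
def scale (e : IsoOn W A B) (r : Γ(X, W)ˣ) : IsoOn W A B where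
  h a b V hW ha hb := e.h a b V hW ha hb * resU hW r
  h_res a b V V' i hW ha hb := by rw [map_mul, e.h_res, resU_resU]
  g_h a a' b V hW ha ha' hb := by rw [← mul_assoc, e.g_h]
  h_g a b b' V hW ha hb hb' := by rw [mul_right_comm, e.h_g]

theorem le_iSup_pair (hA : A.Covers W) (hB : B.Covers W) {V : X.Opens} (hV : V ≤ W) :
    V ≤ iSup fun p : A.ι × B.ι => V ⊓ (A.U p.1 ⊓ B.U p.2) := fun x hx => by
  obtain ⟨a, ha⟩ := Opens.mem_iSup.mp (hA (hV hx))
  obtain ⟨b, hb⟩ := Opens.mem_iSup.mp (hB (hV hx))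
  exact Opens.mem_iSup.mpr ⟨(a, b), hx, ha, hb⟩

/-- Two isomorphisms differ by a unit. -/
theorem exists_scale (hA : A.Covers W) (hB : B.Covers W) (e e' : IsoOn W A B) :
    ∃ r : Γ(X, W)ˣ, e' = e.scale r := by
  let O : A.ι × B.ι → X.Opens := fun p => W ⊓ (A.U p.1 ⊓ B.U p.2)
  let s : ∀ p : A.ι × B.ι, Γ(X, O p)ˣ := fun p =>
    (e.h p.1 p.2 _ inf_le_left (inf_le_right.trans inf_le_left)
      (inf_le_right.trans inf_le_right))⁻¹ *
      e'.h p.1 p.2 _ inf_le_left (inf_le_right.trans inf_le_left)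
        (inf_le_right.trans inf_le_right)
  have indep : ∀ (a a' : A.ι) (b b' : B.ι) (V : X.Opens) (hW : V ≤ W) (ha : V ≤ A.U a)
      (ha' : V ≤ A.U a') (hb : V ≤ B.U b) (hb' : V ≤ B.U b'),
      (e.h a b V hW ha hb)⁻¹ * e'.h a b V hW ha hb =
        (e.h a' b' V hW ha' hb')⁻¹ * e'.h a' b' V hW ha' hb' := by
    intro a a' b b' V hW ha ha' hb hb'
    rw [← e.g_h a a' b V hW ha ha' hb, ← e'.g_h a a' b V hW ha ha' hb,
      ← e.h_g a' b b' V hW ha' hb hb', ← e'.h_g a' b b' V hW ha' hb hb', mul_inv_rev,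
      mul_inv_rev, mul_assoc, inv_mul_cancel_left,
      mul_comm (B.g b b' V hb hb')⁻¹ (e.h a' b V hW ha' hb)⁻¹]
    rw [mul_assoc, mul_comm (e'.h a' b V hW ha' hb) (B.g b b' V hb hb'), inv_mul_cancel_left]
  obtain ⟨r, hr, -⟩ := LineSys.existsUnique_glue_units O W (fun _ => inf_le_left)
    (le_iSup_pair hA hB le_rfl) s fun p q => by
      simp only [s, map_mul, map_inv]
      rw [e.h_res, e'.h_res, e.h_res, e'.h_res]
      exact indep _ _ _ _ _ _ _ _ _ _
  refine ⟨r, IsoOn.ext (funext fun a => funext fun b => funext fun V => funext fun hW =>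
    funext fun ha => funext fun hb => ?_)⟩
  have := congrArg (resU (le_inf hW (le_inf ha hb) : V ≤ O (a, b))) (hr (a, b))
  simp only [s, map_mul, map_inv, resU_resU] at this
  rw [e.h_res, e'.h_res] at this
  show e'.h a b V hW ha hb = e.h a b V hW ha hb * resU hW r
  rw [this, mul_inv_cancel_left]

theorem exists_trans (hB : B.Covers W) (e : IsoOn W A B) (e' : IsoOn W B C) :
    ∃ e'' : IsoOn W A C, ∀ (a : A.ι) (b : B.ι) (c : C.ι) (V : X.Opens) (hW : V ≤ W)
      (ha : V ≤ A.U a) (hb : V ≤ B.U b) (hc : V ≤ C.U c),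
      e''.h a c V hW ha hc = e.h a b V hW ha hb * e'.h b c V hW hb hc := by
  have hx : ∀ (a : A.ι) (c : C.ι) (V : X.Opens) (hW : V ≤ W) (ha : V ≤ A.U a) (hc : V ≤ C.U c),
      ∃! t : Γ(X, V)ˣ, ∀ b, resU (inf_le_left : V ⊓ B.U b ≤ V) t =
        e.h a b _ (inf_le_left.trans hW) (inf_le_left.trans ha) inf_le_right *
          e'.h b c _ (inf_le_left.trans hW) inf_le_right (inf_le_left.trans hc) :=
    fun a c V hW ha hc => LineSys.existsUnique_glue_units _ _ _
      (fun p hp => Opens.mem_iSup.mpr ((Opens.mem_iSup.mp (hB (hW hp))).imp fun b hb =>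
        (show p ∈ V ⊓ B.U b from ⟨hp, hb⟩)))
      _ fun b b' => by
        simp only [map_mul, e.h_res, e'.h_res]
        rw [← e.h_g a b b' _ _ _ (inf_le_left.trans inf_le_right)
          (inf_le_right.trans inf_le_right)]
        rw [mul_assoc, e'.g_h]
  choose t ht hu using hx
  refine ⟨{ h := t, h_res := ?_, g_h := ?_, h_g := ?_ }, ?_⟩
  · intro a c V V' i hW ha hc
    refine hu a c V' _ _ _ _ fun b => ?_
    have := congrArg (resU (inf_le_inf_right (B.U b) i)) (ht a c V hW ha hc b)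
    rw [map_mul, e.h_res, e'.h_res, resU_resU] at this
    rw [resU_resU]
    exact this
  · intro a a' c V hW ha ha' hc
    refine hu a c V hW ha hc _ fun b => ?_
    rw [map_mul, ht, A.g_res, ← mul_assoc, e.g_h]
  · intro a c c' V hW ha hc hc'
    refine hu a c' V hW ha hc' _ fun b => ?_
    rw [map_mul, ht, C.g_res, mul_assoc, e'.h_g]
  · intro a b c V hW ha hb hc
    have := congrArg (resU (le_inf le_rfl hb : V ≤ V ⊓ B.U b)) (ht a c V hW ha hc b)
    rw [map_mul, e.h_res, e'.h_res, resU_resU, resU_self] at this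
    exact this

theorem nonempty_trans (hB : B.Covers W) (e : IsoOn W A B) (e' : IsoOn W B C) :
    Nonempty (IsoOn W A C) :=
  ⟨(exists_trans hB e e').choose⟩

/-- A family of frames of `B` among those of `A`. -/
def refine' (W : X.Opens) (A B : Atlas X) (κ : B.ι → A.ι) (hU : ∀ b, B.U b ≤ A.U (κ b))
    (hg : ∀ (b b' : B.ι) (V : X.Opens) (hb : V ≤ B.U b) (hb' : V ≤ B.U b'),
      A.g (κ b) (κ b') V (hb.trans (hU b)) (hb'.trans (hU b')) = B.g b b' V hb hb') :
    IsoOn W A B where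
  h a b V _ ha hb := A.g a (κ b) V ha (hb.trans (hU b))
  h_res a b V V' i hW ha hb := A.g_res a (κ b) i ha _
  g_h a a' b V hW ha ha' hb := A.g_mul ..
  h_g a b b' V hW ha hb hb' := by
    rw [← hg b b' V hb hb']
    exact A.g_mul ..

/-- Isomorphisms pull back. -/
def pull (f : Y ⟶ X) {W' : Y.Opens} (i : W' ≤ f ⁻¹ᵁ W) (e : IsoOn W A B) :
    IsoOn W' (A.pull f) (B.pull f) where
  h a b V hW ha hb := appU f
    (show V ≤ f ⁻¹ᵁ (W ⊓ (A.U a ⊓ B.U b)) from fun _ h => ⟨i (hW h), ha h, hb h⟩)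
    (e.h a b _ inf_le_left (inf_le_right.trans inf_le_left) (inf_le_right.trans inf_le_right))
  h_res a b V V' j hW ha hb := resU_appU f _ j _
  g_h a a' b V hW ha ha' hb := by
    let T := W ⊓ (A.U a ⊓ A.U a' ⊓ B.U b)
    have hT : V ≤ f ⁻¹ᵁ T := fun _ h => ⟨i (hW h), ⟨ha h, ha' h⟩, hb h⟩
    have key : ∀ (p : A.ι) (hp : T ≤ A.U p) (hq : T ≤ B.U b)
        (j : V ≤ f ⁻¹ᵁ (W ⊓ (A.U p ⊓ B.U b))),
        appU f j (e.h p b _ inf_le_left (inf_le_right.trans inf_le_left)
          (inf_le_right.trans inf_le_right)) = appU f hT (e.h p b T inf_le_left hp hq) := by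
      intro p hp hq j
      rw [← e.h_res p b (le_inf inf_le_left (le_inf hp hq)) inf_le_left
        (inf_le_right.trans inf_le_left) (inf_le_right.trans inf_le_right), appU_resU]
    rw [key a (inf_le_right.trans (inf_le_left.trans inf_le_left))
        (inf_le_right.trans inf_le_right),
      key a' (inf_le_right.trans (inf_le_left.trans inf_le_right))
        (inf_le_right.trans inf_le_right),
      Atlas.pull_g f A a a' V T ha ha' (inf_le_right.trans (inf_le_left.trans inf_le_left))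
        (inf_le_right.trans (inf_le_left.trans inf_le_right)) hT, ← map_mul, e.g_h]
  h_g a b b' V hW ha hb hb' := by
    let T := W ⊓ (A.U a ⊓ B.U b ⊓ B.U b')
    have hT : V ≤ f ⁻¹ᵁ T := fun _ h => ⟨i (hW h), ⟨ha h, hb h⟩, hb' h⟩
    have key : ∀ (q : B.ι) (hp : T ≤ A.U a) (hq : T ≤ B.U q)
        (j : V ≤ f ⁻¹ᵁ (W ⊓ (A.U a ⊓ B.U q))),
        appU f j (e.h a q _ inf_le_left (inf_le_right.trans inf_le_left)
          (inf_le_right.trans inf_le_right)) = appU f hT (e.h a q T inf_le_left hp hq) := by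
      intro q hp hq j
      rw [← e.h_res a q (le_inf inf_le_left (le_inf hp hq)) inf_le_left
        (inf_le_right.trans inf_le_left) (inf_le_right.trans inf_le_right), appU_resU]
    rw [key b (inf_le_right.trans (inf_le_left.trans inf_le_left))
        (inf_le_right.trans (inf_le_left.trans inf_le_right)),
      key b' (inf_le_right.trans (inf_le_left.trans inf_le_left))
        (inf_le_right.trans inf_le_right),
      Atlas.pull_g f B b b' V T hb hb' (inf_le_right.trans (inf_le_left.trans inf_le_right))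
        (inf_le_right.trans inf_le_right) hT, ← map_mul, e.h_g]

theorem pull_h (f : Y ⟶ X) {W' : Y.Opens} (i : W' ≤ f ⁻¹ᵁ W) (e : IsoOn W A B) (a : A.ι)
    (b : B.ι) (V : Y.Opens) (T : X.Opens) (hW : V ≤ W') (ha : V ≤ (A.pull f).U a)
    (hb : V ≤ (B.pull f).U b) (hTW : T ≤ W) (hTa : T ≤ A.U a) (hTb : T ≤ B.U b)
    (hT : V ≤ f ⁻¹ᵁ T) : (e.pull f i).h a b V hW ha hb = appU f hT (e.h a b T hTW hTa hTb) := by
  rw [← e.h_res a b (le_inf hTW (le_inf hTa hTb)) inf_le_left
    (inf_le_right.trans inf_le_left) (inf_le_right.trans inf_le_right), appU_resU]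
  rfl

/-- An isomorphism seen through an open immersion descends to its range. -/
def descend (f : Y ⟶ X) [IsOpenImmersion f] {W' : Y.Opens} (hW : W ≤ f.opensRange)
    (hW' : f ⁻¹ᵁ W ≤ W') (e : IsoOn W' (A.pull f) (B.pull f)) : IsoOn W A B where
  h a b V hV ha hb := liftU f (hV.trans hW)
    (e.h a b (f ⁻¹ᵁ V) (fun _ h => hW' (hV h)) (fun _ h => ha h) (fun _ h => hb h))
  h_res a b V V' i hV ha hb := by
    apply (appU_bijective f ((i.trans hV).trans hW)).1
    rw [appU_liftU, appU_resU, appU_mono f (fun _ h => i h : f ⁻¹ᵁ V' ≤ f ⁻¹ᵁ V), appU_liftU,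
      e.h_res]
  g_h a a' b V hV ha ha' hb := by
    apply (appU_bijective f (hV.trans hW)).1
    rw [map_mul, appU_liftU, appU_liftU,
      ← Atlas.pull_g f A a a' _ V (fun _ h => ha h) (fun _ h => ha' h) ha ha' le_rfl, e.g_h]
  h_g a b b' V hV ha hb hb' := by
    apply (appU_bijective f (hV.trans hW)).1
    rw [map_mul, appU_liftU, appU_liftU,
      ← Atlas.pull_g f B b b' _ V (fun _ h => hb h) (fun _ h => hb' h) hb hb' le_rfl, e.h_g]

theorem nonempty_glue {J : Type u} (Wj : J → X.Opens) (hle : ∀ j, Wj j ≤ W) (hW : W ≤ iSup Wj)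
    (e : ∀ j, IsoOn (Wj j) A B)
    (he : ∀ (i j : J) (a : A.ι) (b : B.ι) (V : X.Opens) (hi : V ≤ Wj i) (hj : V ≤ Wj j)
      (ha : V ≤ A.U a) (hb : V ≤ B.U b), (e i).h a b V hi ha hb = (e j).h a b V hj ha hb) :
    Nonempty (IsoOn W A B) := by
  have hx : ∀ (a : A.ι) (b : B.ι) (V : X.Opens) (hV : V ≤ W) (ha : V ≤ A.U a) (hb : V ≤ B.U b),
      ∃! t : Γ(X, V)ˣ, ∀ j, resU (inf_le_left : V ⊓ Wj j ≤ V) t =
        (e j).h a b _ inf_le_right (inf_le_left.trans ha) (inf_le_left.trans hb) :=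
    fun a b V hV ha hb => LineSys.existsUnique_glue_units _ _ _
      (fun p hp => Opens.mem_iSup.mpr ((Opens.mem_iSup.mp (hW (hV hp))).imp fun j hj =>
        (show p ∈ V ⊓ Wj j from ⟨hp, hj⟩)))
      _ fun i j => by
        simp only [(e i).h_res, (e j).h_res]
        exact he _ _ _ _ _ _ _ _ _
  choose t ht hu using hx
  refine ⟨{ h := t, h_res := ?_, g_h := ?_, h_g := ?_ }⟩
  · intro a b V V' i hV ha hb
    refine hu a b V' _ _ _ _ fun j => ?_
    have := congrArg (resU (inf_le_inf_right (Wj j) i)) (ht a b V hV ha hb j)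
    rw [(e j).h_res, resU_resU] at this
    rw [resU_resU]
    exact this
  · intro a a' b V hV ha ha' hb
    refine hu a b V hV ha hb _ fun j => ?_
    rw [map_mul, ht, A.g_res, (e j).g_h]
  · intro a b b' V hV ha hb hb'
    refine hu a b' V hV ha hb' _ fun j => ?_
    rw [map_mul, ht, B.g_res, (e j).h_g]

/-- From an isomorphism of line systems. -/
def ofIso {L M : LineSys X} (e : LineSys.Iso L M) (W : X.Opens) :
    IsoOn W (ofSys L) (ofSys M) where
  h x y V _ hx hy := e.h x y V hx hy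
  h_res x y V V' i hW hx hy := e.h_res x y i hx hy
  g_h x y z V hW hx hy hz := e.g_h x y z V hx hy hz
  h_g x y z V hW hx hy hz := e.h_g x y z V hx hy hz

/-- To an isomorphism of line systems. -/
def toIso {L M : LineSys X} (e : IsoOn ⊤ (ofSys L) (ofSys M)) : LineSys.Iso L M where
  h x y V hx hy := e.h x y V le_top hx hy
  h_res x y V V' i hx hy := e.h_res x y i le_top hx hy
  g_h x y z V hx hy hz := e.g_h x y z V le_top hx hy hz
  h_g x y z V hx hy hz := e.h_g x y z V le_top hx hy hz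

end IsoOn

/-- A covering atlas gives a line system. -/
def toSys (A : Atlas X) (k : X → A.ι) (hk : ∀ x, x ∈ A.U (k x)) : LineSys X where
  U x := A.U (k x)
  mem := hk
  g x y V hx hy := A.g (k x) (k y) V hx hy
  g_res x y V W i hx hy := A.g_res _ _ i hx hy
  g_mul x y z V hx hy hz := A.g_mul _ _ _ V hx hy hz

/-- The line system of an atlas is the atlas. -/
def toSysIso (A : Atlas X) (k : X → A.ι) (hk : ∀ x, x ∈ A.U (k x)) (W : X.Opens) :
    IsoOn W A (ofSys (A.toSys k hk)) :=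
  IsoOn.refine' W A (ofSys (A.toSys k hk)) k (fun _ => le_rfl) fun _ _ _ _ _ => rfl

/-- Image of the atlas of a line system along an open immersion. -/
def push (f : Y ⟶ X) [IsOpenImmersion f] (L : LineSys Y) : Atlas X where
  ι := Y
  U y := f ''ᵁ L.U y
  g y z V hy hz := liftU f (hy.trans (f.image_le_opensRange _))
    (L.g y z (f ⁻¹ᵁ V) (fun _ h => (f.preimage_image_eq (L.U y)).le (hy h))
      (fun _ h => (f.preimage_image_eq (L.U z)).le (hz h)))
  g_res y z V W i hy hz := by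
    apply (appU_bijective f ((i.trans hy).trans (f.image_le_opensRange _))).1
    rw [appU_liftU, appU_resU, appU_mono f (fun _ h => i h : f ⁻¹ᵁ W ≤ f ⁻¹ᵁ V), appU_liftU,
      L.g_res]
  g_mul x y z V hx hy hz := by rw [← map_mul, L.g_mul]

theorem covers_push (f : Y ⟶ X) [IsOpenImmersion f] (L : LineSys Y) :
    (push f L).Covers f.opensRange := by
  rintro p ⟨y, rfl⟩
  exact Opens.mem_iSup.mpr ⟨y, y, L.mem y, rfl⟩

/-- Pulling back the image gives back the system. -/
def pullPushIso (f : Y ⟶ X) [IsOpenImmersion f] (L : LineSys Y) (W : Y.Opens) :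
    IsoOn W ((push f L).pull f) (ofSys L) :=
  IsoOn.refine' W _ (ofSys L) id (fun y => (f.preimage_image_eq (L.U y)).ge)
    fun y z V hy hz => by
      let T := f ''ᵁ L.U y ⊓ f ''ᵁ L.U z
      show appU f _ (liftU f _ _) = L.g y z V hy hz
      rw [appU_mono, appU_liftU, L.g_res]
      rfl

/-- Pullback of atlases commutes with composition. -/
def pullCompIso (f : Y ⟶ X) (p : Z ⟶ Y) (A : Atlas X) (W : Z.Opens) :
    IsoOn W (A.pull (p ≫ f)) ((A.pull f).pull p) :=
  IsoOn.refine' W (A.pull (p ≫ f)) _ id (fun _ => le_rfl) fun a b V ha hb => by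
    show _ = appU p _ (appU f _ _)
    rw [appU_appU]
    rfl

/-- Pullback of atlases along equal morphisms. -/
def pullCongrIso {f g : Y ⟶ X} (h : f = g) (A : Atlas X) (W : Y.Opens) :
    IsoOn W (A.pull f) (A.pull g) := by
  subst h
  exact IsoOn.refl W _

/-- The pullback of a line system, as a reindexing. -/
def pullSysIso (f : Y ⟶ X) (L : LineSys X) (W : Y.Opens) :
    IsoOn W ((ofSys L).pull f) (ofSys (L.pull f)) :=
  IsoOn.refine' W ((ofSys L).pull f) (ofSys (L.pull f)) (fun y => f y) (fun _ => le_rfl)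
    fun _ _ _ _ _ => rfl

/-- The trivial line system. -/
def unitIso (X : Scheme.{u}) (W : X.Opens) : IsoOn W (unit X) (ofSys (LineSys.triv X)) :=
  IsoOn.refine' W (unit X) _ (fun _ => PUnit.unit) (fun _ => le_rfl) fun _ _ _ _ _ => rfl

/-- The pullback of the trivial atlas. -/
def pullUnitIso (f : Y ⟶ X) (W : Y.Opens) : IsoOn W ((unit X).pull f) (unit Y) :=
  IsoOn.refine' W ((unit X).pull f) (unit Y) id (fun _ => le_rfl) fun a b V ha hb =>
    map_one (appU f (show V ≤ f ⁻¹ᵁ (⊤ ⊓ ⊤) from fun _ _ => ⟨trivial, trivial⟩))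

end Atlas

end Fermat.Agent.Jacobian
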