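/-
Normalised isomorphisms along a section are unique; locally trivial rigidified systems are trivial,
and rigidified systems glue.
-/
import Fermat.Agent.Jacobian.Glue.Atlas

set_option autoImplicit false
set_option linter.unusedVariables false

universe u

open CategoryTheory AlgebraicGeometry TopologicalSpace Opposite

noncomputable section

namespace Fermat.Agent.Jacobian

/-- Units on a preimage come from the base. -/
def UnitsFromBase {X T : Scheme.{u}} (π : X ⟶ T) : Prop :=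
  ∀ V : T.Opens, Function.Bijective (appU π (le_refl (π ⁻¹ᵁ V)))

namespace Atlas

variable {X T : Scheme.{u}} {π : X ⟶ T} {σ : T ⟶ X}

theorem appU_congr {Y : Scheme.{u}} {f g : Y ⟶ X} (h : f = g) {U : X.Opens} {V : Y.Opens}
    (e : V ≤ f ⁻¹ᵁ U) (e' : V ≤ g ⁻¹ᵁ U) (a : Γ(X, U)ˣ) : appU f e a = appU g e' a := by
  subst h
  rfl

theorem appU_id {U V : X.Opens} (e : V ≤ (𝟙 X : X ⟶ X) ⁻¹ᵁ U) (a : Γ(X, U)ˣ) :
    appU (𝟙 X) e a = resU (show V ≤ U from e) a := by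
  refine Units.ext ?_
  show (𝟙 X : X ⟶ X).appLE U V e _ = _
  simp only [Scheme.Hom.appLE, Scheme.Hom.id_app, Category.id_comp]
  rfl

theorem appU_section (hσ : σ ≫ π = 𝟙 T) {V V' : T.Opens} {W : X.Opens} (hW : W ≤ π ⁻¹ᵁ V)
    (e : V' ≤ σ ⁻¹ᵁ W) (h : V' ≤ V) (v : Γ(T, V)ˣ) :
    appU σ e (appU π hW v) = resU h v := by
  rw [appU_appU, appU_congr hσ _ (show V' ≤ (𝟙 T : T ⟶ T) ⁻¹ᵁ V from h), appU_id]

theorem le_section_preimage (hσ : σ ≫ π = 𝟙 T) (V : T.Opens) : V ≤ σ ⁻¹ᵁ (π ⁻¹ᵁ V) := by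
  intro p hp
  show π (σ p) ∈ V
  rw [← Scheme.Hom.comp_apply, hσ]
  simpa using hp

/-- A rigidification over `V`. -/
abbrev Rigid (σ : T ⟶ X) (V : T.Opens) (A : Atlas X) : Type u :=
  IsoOn V (A.pull σ) (unit T)

/-- An isomorphism compatible with two rigidifications. -/
def Normal (σ : T ⟶ X) {W : X.Opens} {V : T.Opens} {A B : Atlas X} (e : IsoOn W A B)
    (rA : Rigid σ V A) (rB : Rigid σ V B) : Prop :=
  ∀ (a : A.ι) (b : B.ι) (V' : T.Opens) (hV : V' ≤ V) (O : X.Opens) (hO : O ≤ W) (ha : O ≤ A.U a)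
    (hb : O ≤ B.U b) (hO' : V' ≤ σ ⁻¹ᵁ O),
    appU σ hO' (e.h a b O hO ha hb) *
        rB.h b PUnit.unit V' hV (fun _ h => hb (hO' h)) le_top =
      rA.h a PUnit.unit V' hV (fun _ h => ha (hO' h)) le_top

theorem Normal.restrict {W W' : X.Opens} {V V' : T.Opens} {A B : Atlas X} {e : IsoOn W A B}
    {rA : Rigid σ V A} {rB : Rigid σ V B} (h : Normal σ e rA rB) (i : W' ≤ W) (j : V' ≤ V) :
    Normal σ (e.restrict i) (rA.restrict j) (rB.restrict j) :=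
  fun a b V'' hV O hO ha hb hO' => h a b V'' (hV.trans j) O (hO.trans i) ha hb hO'

variable {V : T.Opens} {A B C : Atlas X}

theorem normal_unique (hu : UnitsFromBase π) (hσ : σ ≫ π = 𝟙 T) (hA : A.Covers (π ⁻¹ᵁ V))
    (hB : B.Covers (π ⁻¹ᵁ V)) {e e' : IsoOn (π ⁻¹ᵁ V) A B} {rA : Rigid σ V A}
    {rB : Rigid σ V B} (h : Normal σ e rA rB) (h' : Normal σ e' rA rB) : e = e' := by
  obtain ⟨r, rfl⟩ := IsoOn.exists_scale hA hB e e'
  obtain ⟨v, rfl⟩ := (hu V).2 r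
  have hv : v = 1 := by
    refine LineSys.units_ext
      (fun p : A.ι × B.ι => V ⊓ σ ⁻¹ᵁ (π ⁻¹ᵁ V ⊓ (A.U p.1 ⊓ B.U p.2))) V (fun _ => inf_le_left)
      (fun x hx => ?_) _ _ fun p => ?_
    · have hx' := le_section_preimage hσ V hx
      obtain ⟨a, ha⟩ := Opens.mem_iSup.mp (hA hx')
      obtain ⟨b, hb⟩ := Opens.mem_iSup.mp (hB hx')
      exact Opens.mem_iSup.mpr ⟨(a, b), hx, hx', ha, hb⟩
    · have h1 := h p.1 p.2 _ inf_le_left _ inf_le_left (inf_le_right.trans inf_le_left)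
        (inf_le_right.trans inf_le_right) inf_le_right
      have h2 := h' p.1 p.2 _ inf_le_left _ inf_le_left (inf_le_right.trans inf_le_left)
        (inf_le_right.trans inf_le_right) inf_le_right
      simp only [IsoOn.scale, map_mul, resU_appU] at h2
      rw [appU_section hσ _ _ inf_le_left, mul_right_comm, h1] at h2
      rw [map_one]
      exact mul_left_cancel (h2.trans (mul_one _).symm)
  subst hv
  ext a b W hW ha hb
  simp [IsoOn.scale]

theorem exists_normal (hσ : σ ≫ π = 𝟙 T) (hB : B.Covers (π ⁻¹ᵁ V)) (hA : A.Covers (π ⁻¹ᵁ V))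
    (rA : Rigid σ V A) (rB : Rigid σ V B) (e : IsoOn (π ⁻¹ᵁ V) A B) :
    ∃ e' : IsoOn (π ⁻¹ᵁ V) A B, Normal σ e' rA rB := by
  obtain ⟨d, hd⟩ := IsoOn.exists_trans (covers_pull σ hB (le_section_preimage hσ V))
    (e.pull σ (le_section_preimage hσ V)) rB
  obtain ⟨v, hv⟩ := IsoOn.exists_scale (covers_pull σ hA (le_section_preimage hσ V))
    (covers_unit T V) d rA
  refine ⟨e.scale (appU π le_rfl v), fun a b V' hV O hO ha hb hO' => ?_⟩
  subst hv
  simp only [IsoOn.scale, map_mul, resU_appU]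
  rw [appU_section hσ _ _ hV, hd a b PUnit.unit V' hV _ (fun _ h => hb (hO' h)) le_top,
    IsoOn.pull_h σ _ e a b V' O hV _ _ hO ha hb hO', mul_right_comm]

theorem normal_trans (hσ : σ ≫ π = 𝟙 T) (hB : B.Covers (π ⁻¹ᵁ V)) {e : IsoOn (π ⁻¹ᵁ V) A B}
    {e' : IsoOn (π ⁻¹ᵁ V) B C} {e'' : IsoOn (π ⁻¹ᵁ V) A C} {rA : Rigid σ V A} {rB : Rigid σ V B}
    {rC : Rigid σ V C} (he : Normal σ e rA rB) (he' : Normal σ e' rB rC)
    (hc : ∀ (a : A.ι) (b : B.ι) (c : C.ι) (O : X.Opens) (hW : O ≤ π ⁻¹ᵁ V) (ha : O ≤ A.U a)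
      (hb : O ≤ B.U b) (hc : O ≤ C.U c),
      e''.h a c O hW ha hc = e.h a b O hW ha hb * e'.h b c O hW hb hc) :
    Normal σ e'' rA rC := by
  intro a c V' hV O hO ha hc' hO'
  refine LineSys.units_ext (fun b : B.ι => V' ⊓ σ ⁻¹ᵁ (O ⊓ B.U b)) V' (fun _ => inf_le_left)
    (fun x hx => ?_) _ _ fun b => ?_
  · obtain ⟨b, hb⟩ := Opens.mem_iSup.mp (hB (hO (hO' hx)))
    exact Opens.mem_iSup.mpr ⟨b, hx, hO' hx, hb⟩
  · rw [map_mul, resU_appU, rC.h_res, rA.h_res,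
      ← appU_resU σ (inf_le_left : O ⊓ B.U b ≤ O) inf_le_right, e''.h_res,
      hc a b c _ _ _ inf_le_right _, map_mul, mul_assoc,
      he' b c _ (inf_le_left.trans hV) _ (inf_le_left.trans hO) inf_le_right
        (inf_le_left.trans hc') inf_le_right,
      he a b _ (inf_le_left.trans hV) _ (inf_le_left.trans hO) (inf_le_left.trans ha)
        inf_le_right inf_le_right]

theorem normal_cocycle (hu : UnitsFromBase π) (hσ : σ ≫ π = 𝟙 T) (hA : A.Covers (π ⁻¹ᵁ V))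
    (hB : B.Covers (π ⁻¹ᵁ V)) (hC : C.Covers (π ⁻¹ᵁ V)) {e : IsoOn (π ⁻¹ᵁ V) A B}
    {e' : IsoOn (π ⁻¹ᵁ V) B C} {e'' : IsoOn (π ⁻¹ᵁ V) A C} {rA : Rigid σ V A} {rB : Rigid σ V B}
    {rC : Rigid σ V C} (he : Normal σ e rA rB) (he' : Normal σ e' rB rC)
    (he'' : Normal σ e'' rA rC) (a : A.ι) (b : B.ι) (c : C.ι) (O : X.Opens) (hW : O ≤ π ⁻¹ᵁ V)
    (ha : O ≤ A.U a) (hb : O ≤ B.U b) (hc : O ≤ C.U c) :
    e.h a b O hW ha hb * e'.h b c O hW hb hc = e''.h a c O hW ha hc := by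
  obtain ⟨d, hd⟩ := IsoOn.exists_trans hB e e'
  rw [normal_unique hu hσ hA hC he'' (normal_trans hσ hB he he' hd), hd]

theorem nonempty_triv_of_local (hu : UnitsFromBase π) (hσ : σ ≫ π = 𝟙 T)
    (hA : A.Covers ⊤) (r : Rigid σ ⊤ A) {J : Type u} (O : J → T.Opens) (hO : ⊤ ≤ iSup O)
    (h : ∀ j, Nonempty (IsoOn (π ⁻¹ᵁ O j) A (unit X))) :
    Nonempty (IsoOn ⊤ A (unit X)) := by
  let rU : Rigid σ ⊤ (unit X) := pullUnitIso σ ⊤
  have hA' : ∀ W : X.Opens, A.Covers W := fun W => le_top.trans hA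
  have hn : ∀ j, ∃ e : IsoOn (π ⁻¹ᵁ O j) A (unit X),
      Normal σ e (r.restrict le_top) (rU.restrict le_top) := fun j =>
    exists_normal hσ (covers_unit X _) (hA' _) _ _ (h j).some
  choose e he using hn
  refine IsoOn.nonempty_glue (fun j => π ⁻¹ᵁ O j) (fun _ => le_top)
    (fun x _ => Opens.mem_iSup.mpr ((Opens.mem_iSup.mp (hO (x := π x) trivial)).imp fun _ hj => hj))
    e fun i j a b W hi hj ha hb => ?_
  have hl : π ⁻¹ᵁ (O i ⊓ O j) ≤ π ⁻¹ᵁ O i := fun _ h => h.1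
  have hr : π ⁻¹ᵁ (O i ⊓ O j) ≤ π ⁻¹ᵁ O j := fun _ h => h.2
  have heq : (e i).restrict hl = (e j).restrict hr :=
    normal_unique (rA := r.restrict le_top) (rB := rU.restrict le_top) hu hσ (hA' _)
      (covers_unit X _)
      (fun a b V' hV W' hW ha hb hO' => he i a b V' (hV.trans inf_le_left) W' _ ha hb hO')
      (fun a b V' hV W' hW ha hb hO' => he j a b V' (hV.trans inf_le_right) W' _ ha hb hO')
  have := congrArg (fun f : IsoOn (π ⁻¹ᵁ (O i ⊓ O j)) A (unit X) =>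
    f.h a b W (fun _ hw => ⟨hi hw, hj hw⟩) ha hb) heq
  exact this

theorem exists_glue (hu : UnitsFromBase π) (hσ : σ ≫ π = 𝟙 T) {J : Type u} (O : J → T.Opens)
    (hO : ⊤ ≤ iSup O) (A : J → Atlas X) (hA : ∀ j, (A j).Covers (π ⁻¹ᵁ O j))
    (r : ∀ j, Rigid σ (O j) (A j))
    (h : ∀ i j, Nonempty (IsoOn (π ⁻¹ᵁ (O i ⊓ O j)) (A i) (A j))) :
    ∃ L : LineSys X, Nonempty (Rigid σ ⊤ (ofSys L)) ∧
      ∀ j, Nonempty (IsoOn (π ⁻¹ᵁ O j) (ofSys L) (A j)) := by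
  have hcov : ∀ (V : T.Opens) (j : J), V ≤ O j → (A j).Covers (π ⁻¹ᵁ V) :=
    fun V j hV x hx => hA j (hV hx)
  have hn : ∀ i j, ∃ e : IsoOn (π ⁻¹ᵁ (O i ⊓ O j)) (A i) (A j),
      Normal σ e ((r i).restrict inf_le_left) ((r j).restrict inf_le_right) := fun i j =>
    exists_normal hσ (hcov _ _ inf_le_right) (hcov _ _ inf_le_left) _ _ (h i j).some
  choose φ hφ using hn
  have coc : ∀ (i j l : J) (a : (A i).ι) (b : (A j).ι) (c : (A l).ι) (W : X.Opens)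
      (hi : W ≤ π ⁻¹ᵁ O i) (hj : W ≤ π ⁻¹ᵁ O j) (hl : W ≤ π ⁻¹ᵁ O l) (ha : W ≤ (A i).U a)
      (hb : W ≤ (A j).U b) (hc : W ≤ (A l).U c),
      (φ i j).h a b W (fun _ h => ⟨hi h, hj h⟩) ha hb *
          (φ j l).h b c W (fun _ h => ⟨hj h, hl h⟩) hb hc =
        (φ i l).h a c W (fun _ h => ⟨hi h, hl h⟩) ha hc := by
    intro i j l a b c W hi hj hl ha hb hc
    let V := O i ⊓ O j ⊓ O l
    have h12 : V ≤ O i ⊓ O j := inf_le_left
    have h23 : V ≤ O j ⊓ O l := inf_le_inf_right _ inf_le_right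
    have h13 : V ≤ O i ⊓ O l := inf_le_inf_right _ inf_le_left
    exact normal_cocycle (V := V) (rA := (r i).restrict (h12.trans inf_le_left))
      (rB := (r j).restrict (h12.trans inf_le_right))
      (rC := (r l).restrict inf_le_right) hu hσ (hcov V i (h12.trans inf_le_left))
      (hcov V j (h12.trans inf_le_right)) (hcov V l inf_le_right)
      (e := (φ i j).restrict fun _ h => h12 h) (e' := (φ j l).restrict fun _ h => h23 h)
      (e'' := (φ i l).restrict fun _ h => h13 h)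
      (fun a b V' hV W' hW ha hb hO' => hφ i j a b V' (hV.trans h12) W' _ ha hb hO')
      (fun a b V' hV W' hW ha hb hO' => hφ j l a b V' (hV.trans h23) W' _ ha hb hO')
      (fun a b V' hV W' hW ha hb hO' => hφ i l a b V' (hV.trans h13) W' _ ha hb hO')
      a b c W (fun _ h => ⟨⟨hi h, hj h⟩, hl h⟩) ha hb hc
  let G : Atlas X :=
    { ι := Σ j, (A j).ι
      U := fun p => π ⁻¹ᵁ O p.1 ⊓ (A p.1).U p.2
      g := fun p q W hp hq => (φ p.1 q.1).h p.2 q.2 W (fun _ h => ⟨(hp h).1, (hq h).1⟩)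
        (hp.trans inf_le_right) (hq.trans inf_le_right)
      g_res := fun p q _ _ i hp hq => (φ p.1 q.1).h_res p.2 q.2 i _ _ _
      g_mul := fun p q s W hp hq hs => coc p.1 q.1 s.1 p.2 q.2 s.2 W (hp.trans inf_le_left)
        (hq.trans inf_le_left) (hs.trans inf_le_left) _ _ _ }
  have hG : ∀ x : X, ∃ p : G.ι, x ∈ G.U p := fun x => by
    obtain ⟨j, hj⟩ := Opens.mem_iSup.mp (hO (x := π x) trivial)
    obtain ⟨a, ha⟩ := Opens.mem_iSup.mp (hA j (show x ∈ π ⁻¹ᵁ O j from hj))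
    exact ⟨⟨j, a⟩, hj, ha⟩
  have hGc : ∀ W, G.Covers W := fun W x _ => Opens.mem_iSup.mpr (hG x)
  choose kf hk using hG
  refine ⟨G.toSys kf hk, ?_, fun j => ?_⟩
  · have R : Rigid σ ⊤ G :=
      { h := fun p q W _ hp hq => (r p.1).h p.2 q W
          (fun x hx => (show x ∈ σ ⁻¹ᵁ (π ⁻¹ᵁ O p.1) from (hp hx).1) |> fun h => by
            have h' : π (σ x) ∈ O p.1 := h
            rw [← Scheme.Hom.comp_apply, hσ] at h'
            simpa using h')
          (fun _ hx => (hp hx).2) hq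
        h_res := fun p q _ _ i hW hp hq => (r p.1).h_res p.2 q i _ _ _
        g_h := fun p p' q W hW hp hp' hq => by
          refine hφ p.1 p'.1 p.2 p'.2 W ?_ _ _ _ _ _
          intro x hx
          have h1 : π (σ x) ∈ O p.1 := (hp hx).1
          have h2 : π (σ x) ∈ O p'.1 := (hp' hx).1
          rw [← Scheme.Hom.comp_apply, hσ] at h1 h2
          exact ⟨by simpa using h1, by simpa using h2⟩
        h_g := fun p q q' W hW hp hq hq' => (r p.1).h_g p.2 q q' W _ _ hq hq' }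
    exact IsoOn.nonempty_trans (covers_pull σ (W := ⊤) (hGc ⊤) fun _ _ => trivial)
      (IsoOn.pull σ (W := ⊤) (fun _ _ => trivial) (toSysIso G kf hk ⊤).symm) R
  · exact IsoOn.nonempty_trans (hGc _) (toSysIso G kf hk _).symm
      { h := fun p b W hW hp hb => (φ p.1 j).h p.2 b W (fun _ h => ⟨(hp h).1, hW h⟩)
          (hp.trans inf_le_right) hb
        h_res := fun p b _ _ i hW hp hb => (φ p.1 j).h_res p.2 b i _ _ _
        g_h := fun p p' b W hW hp hp' hb => coc p.1 p'.1 j p.2 p'.2 b W (hp.trans inf_le_left)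
          (hp'.trans inf_le_left) hW _ _ hb
        h_g := fun p b b' W hW hp hb hb' => (φ p.1 j).h_g p.2 b b' W _ _ hb hb' }

end Atlas

end Fermat.Agent.Jacobian
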