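/-
Base change of rigidified classes along open immersions: they are determined locally and glue.
-/
import Fermat.Agent.Jacobian.Glue.Rigid
import Fermat.Agent.Jacobian.Core.Defs

set_option autoImplicit false
set_option linter.unusedVariables false

universe u

open CategoryTheory CategoryTheory.Limits AlgebraicGeometry AlgebraicGeometry.RelPicard
  TopologicalSpace Opposite NeronModelInfra GoodReductionJacobian

noncomputable section

namespace Fermat.Agent.Jacobian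

section general

variable {X Y Z T T' : Scheme.{u}}

theorem nonempty_rigid_iff (σ : T ⟶ X) (L : LineSys X) :
    LinePic.pullback σ (LinePic.mk L) = 1 ↔
      Nonempty (Atlas.Rigid σ ⊤ (Atlas.ofSys L)) := by
  rw [LinePic.pullback_mk, LinePic.one_def, LinePic.mk_eq_mk]
  constructor
  · rintro ⟨e⟩
    obtain ⟨e₁⟩ := Atlas.IsoOn.nonempty_trans (Atlas.covers_ofSys _ ⊤)
      (Atlas.pullSysIso σ L ⊤) (Atlas.IsoOn.ofIso e ⊤)
    exact Atlas.IsoOn.nonempty_trans (Atlas.covers_ofSys _ ⊤) e₁ (Atlas.unitIso T ⊤).symm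
  · rintro ⟨r⟩
    obtain ⟨e₁⟩ := Atlas.IsoOn.nonempty_trans
      (Atlas.covers_pull σ (W := ⊤) (Atlas.covers_ofSys L ⊤) fun _ _ => trivial)
      (Atlas.pullSysIso σ L ⊤).symm r
    obtain ⟨e₂⟩ := Atlas.IsoOn.nonempty_trans (Atlas.covers_unit T ⊤) e₁ (Atlas.unitIso T ⊤)
    exact ⟨e₂.toIso⟩

theorem covers_pull_push (f : Y ⟶ X) [IsOpenImmersion f] (M : LineSys Y) (W : Y.Opens) :
    ((Atlas.push f M).pull f).Covers W :=
  Atlas.covers_pull f (Atlas.covers_push f M) fun y _ => ⟨y, rfl⟩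

theorem nonempty_pull_push (f : Y ⟶ X) [IsOpenImmersion f] (p : Z ⟶ Y) {h : Z ⟶ X}
    (hp : p ≫ f = h) (M : LineSys Y) (W : Z.Opens) :
    Nonempty (Atlas.IsoOn W ((Atlas.push f M).pull h) (Atlas.ofSys (M.pull p))) := by
  subst hp
  obtain ⟨e₁⟩ := Atlas.IsoOn.nonempty_trans
    (Atlas.covers_pull p (covers_pull_push f M ⊤) fun _ _ => trivial)
    (Atlas.pullCompIso f p (Atlas.push f M) W)
    (Atlas.IsoOn.pull p (W := ⊤) (fun _ _ => trivial) (Atlas.pullPushIso f M ⊤))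
  exact Atlas.IsoOn.nonempty_trans
    (Atlas.covers_pull p (W := ⊤) (Atlas.covers_ofSys M ⊤) fun _ _ => trivial)
    e₁ (Atlas.pullSysIso p M W)

theorem nonempty_push_iso (f : Y ⟶ X) (g : T ⟶ X) [IsOpenImmersion f] [IsOpenImmersion g]
    (p : Z ⟶ Y) (q : Z ⟶ T) {h : Z ⟶ X} [IsOpenImmersion h] (hp : p ≫ f = h) (hq : q ≫ g = h)
    (M : LineSys Y) (N : LineSys T)
    (e : LinePic.pullback p (LinePic.mk M) = LinePic.pullback q (LinePic.mk N)) :
    Nonempty (Atlas.IsoOn h.opensRange (Atlas.push f M) (Atlas.push g N)) := by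
  rw [LinePic.pullback_mk, LinePic.pullback_mk, LinePic.mk_eq_mk] at e
  obtain ⟨e⟩ := e
  obtain ⟨e₁⟩ := Atlas.IsoOn.nonempty_trans (Atlas.covers_ofSys _ ⊤)
    (nonempty_pull_push f p hp M ⊤).some (Atlas.IsoOn.ofIso e ⊤)
  obtain ⟨e₂⟩ := Atlas.IsoOn.nonempty_trans (Atlas.covers_ofSys _ ⊤)
    e₁ (nonempty_pull_push g q hq N ⊤).some.symm
  exact ⟨Atlas.IsoOn.descend h le_rfl le_top e₂⟩

theorem pullback_eq_mk (f : Y ⟶ X) [IsOpenImmersion f] (L : LineSys X) (M : LineSys Y)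
    (e : Atlas.IsoOn f.opensRange (Atlas.ofSys L) (Atlas.push f M)) :
    LinePic.pullback f (LinePic.mk L) = LinePic.mk M := by
  rw [LinePic.pullback_mk, LinePic.mk_eq_mk]
  obtain ⟨e₁⟩ := Atlas.IsoOn.nonempty_trans (covers_pull_push f M ⊤)
    (Atlas.IsoOn.pull f (W := f.opensRange) (W' := ⊤) (fun y _ => ⟨y, rfl⟩) e) (Atlas.pullPushIso f M ⊤)
  obtain ⟨e₂⟩ := Atlas.IsoOn.nonempty_trans
    (Atlas.covers_pull f (W := ⊤) (Atlas.covers_ofSys L ⊤) fun _ _ => trivial)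
    (Atlas.pullSysIso f L ⊤).symm e₁
  exact ⟨e₂.toIso⟩

theorem nonempty_trivial_on (f : Y ⟶ X) [IsOpenImmersion f] (L : LineSys X)
    (e : LinePic.pullback f (LinePic.mk L) = 1) :
    Nonempty (Atlas.IsoOn f.opensRange (Atlas.ofSys L) (Atlas.unit X)) := by
  rw [LinePic.pullback_mk, LinePic.one_def, LinePic.mk_eq_mk] at e
  obtain ⟨e⟩ := e
  obtain ⟨e₁⟩ := Atlas.IsoOn.nonempty_trans (Atlas.covers_ofSys _ ⊤)
    (Atlas.pullSysIso f L ⊤) (Atlas.IsoOn.ofIso e ⊤)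
  obtain ⟨e₂⟩ := Atlas.IsoOn.nonempty_trans (Atlas.covers_ofSys _ ⊤) e₁
    (Atlas.unitIso Y ⊤).symm
  obtain ⟨e₃⟩ := Atlas.IsoOn.nonempty_trans (Atlas.covers_unit Y ⊤) e₂
    (Atlas.pullUnitIso f ⊤).symm
  exact ⟨Atlas.IsoOn.descend f le_rfl le_top e₃⟩

theorem nonempty_rigid_push (σ : T ⟶ X) (f : Y ⟶ X) [IsOpenImmersion f] (j : T' ⟶ T)
    [IsOpenImmersion j] (σ' : T' ⟶ Y) (hsq : σ' ≫ f = j ≫ σ) (M : LineSys Y)
    (e : LinePic.pullback σ' (LinePic.mk M) = 1) :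
    Nonempty (Atlas.Rigid σ j.opensRange (Atlas.push f M)) := by
  have hc : ((Atlas.push f M).pull (j ≫ σ)).Covers ⊤ := by
    refine Atlas.covers_pull _ (Atlas.covers_push f M) fun z _ => ?_
    exact ⟨σ' z, by rw [← Scheme.Hom.comp_apply, hsq]⟩
  obtain ⟨e₀⟩ := nonempty_pull_push f σ' hsq M ⊤
  rw [LinePic.pullback_mk, LinePic.one_def, LinePic.mk_eq_mk] at e
  obtain ⟨e⟩ := e
  obtain ⟨e₁⟩ := Atlas.IsoOn.nonempty_trans hc
    (Atlas.pullCompIso σ j (Atlas.push f M) ⊤).symm e₀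
  obtain ⟨e₂⟩ := Atlas.IsoOn.nonempty_trans (Atlas.covers_ofSys _ ⊤) e₁
    (Atlas.IsoOn.ofIso e ⊤)
  obtain ⟨e₃⟩ := Atlas.IsoOn.nonempty_trans (Atlas.covers_ofSys _ ⊤) e₂
    (Atlas.unitIso T' ⊤).symm
  obtain ⟨e₄⟩ := Atlas.IsoOn.nonempty_trans (Atlas.covers_unit T' ⊤) e₃
    (Atlas.pullUnitIso j ⊤).symm
  exact ⟨Atlas.IsoOn.descend j le_rfl le_top e₄⟩

end general

variable {k : Type u} [Field k] {C : Scheme.{u}}
variable {c : C ⟶ Spec (CommRingCat.of k)} {ε : SchemeHomOver (𝟙 (Spec (CommRingCat.of k))) c}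
variable {T T' T'' : Scheme.{u}} {t : T ⟶ Spec (CommRingCat.of k)}
  {t' : T' ⟶ Spec (CommRingCat.of k)} {t'' : T'' ⟶ Spec (CommRingCat.of k)}

theorem bcSnd_snd (ψ : SchemeHomOver t' t) :
    baseChangeSnd c ψ ≫ pullback.snd c t = pullback.snd c t' ≫ ψ.1 := pullback.lift_snd _ _ _

theorem isPullback_bcSnd (ψ : SchemeHomOver t' t) :
    IsPullback (baseChangeSnd c ψ) (pullback.snd c t') (pullback.snd c t) ψ.1 := by
  refine IsPullback.of_right ?_ (bcSnd_snd ψ) (IsPullback.of_hasPullback c t)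
  rw [ψ.2]
  convert IsPullback.of_hasPullback c t' using 1
  exact (pullback.lift_fst _ _ _).trans (Category.comp_id _)

theorem isOpenImmersion_bcSnd (ψ : SchemeHomOver t' t) [IsOpenImmersion ψ.1] :
    IsOpenImmersion (baseChangeSnd c ψ) :=
  MorphismProperty.of_isPullback (P := @IsOpenImmersion) (isPullback_bcSnd ψ).flip inferInstance

theorem opensRange_bcSnd (ψ : SchemeHomOver t' t) [IsOpenImmersion ψ.1]
    [IsOpenImmersion (baseChangeSnd c ψ)] :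
    (baseChangeSnd c ψ).opensRange = pullback.snd c t ⁻¹ᵁ ψ.1.opensRange := by
  refine Opens.ext (Set.ext fun x => ⟨?_, ?_⟩)
  · rintro ⟨y, rfl⟩
    exact ⟨pullback.snd c t' y, by
      rw [← Scheme.Hom.comp_apply, ← Scheme.Hom.comp_apply, bcSnd_snd ψ]⟩
  · rintro ⟨z, hz⟩
    obtain ⟨o, h₁, -⟩ := Scheme.exists_preimage_of_isPullback (isPullback_bcSnd ψ) x z hz.symm
    exact ⟨o, h₁⟩

theorem GlobalUnits.unitsFromBase (hu : GlobalUnits c) (t : T ⟶ Spec (CommRingCat.of k)) :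
    UnitsFromBase (pullback.snd c t) := by
  intro V
  let ψ : SchemeHomOver (V.ι ≫ t) t := ⟨V.ι, rfl⟩
  haveI := isOpenImmersion_bcSnd (c := c) ψ
  have hV : (pullback.snd c t ⁻¹ᵁ V) = (baseChangeSnd c ψ).opensRange := by
    rw [opensRange_bcSnd, Scheme.Opens.opensRange_ι]
  have e : ⊤ ≤ baseChangeSnd c ψ ⁻¹ᵁ (pullback.snd c t ⁻¹ᵁ V) := fun y _ => hV.ge ⟨y, rfl⟩
  have e' : ⊤ ≤ V.ι ⁻¹ᵁ V := fun y _ => y.2
  have hf : Function.Bijective (appU (baseChangeSnd c ψ) e) := by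
    refine ⟨appU_injective_of_eq _ e hV.le le_top, fun b => ?_⟩
    obtain ⟨a, ha⟩ := (appU_bijective _ hV.le).2 (resU le_top b)
    exact ⟨a, by rw [appU_mono, ha, resU_resU, resU_self]⟩
  have hj : Function.Bijective (appU V.ι e') := by
    have hr : V ≤ V.ι.opensRange := by rw [Scheme.Opens.opensRange_ι]
    refine ⟨appU_injective_of_eq _ e' hr le_top, fun b => ?_⟩
    obtain ⟨a, ha⟩ := (appU_bijective _ hr).2 (resU le_top b)
    exact ⟨a, by rw [appU_mono, ha, resU_resU, resU_self]⟩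
  have hs : Function.Bijective (appU (pullback.snd c (V.ι ≫ t))
      (le_refl (pullback.snd c (V.ι ≫ t) ⁻¹ᵁ ⊤))) := by
    have hb : Function.Bijective ((pullback.snd c (V.ι ≫ t)).appLE ⊤
        (pullback.snd c (V.ι ≫ t) ⁻¹ᵁ ⊤) le_rfl).hom := by
      rw [Scheme.Hom.appLE_eq_app]
      exact hu (V.ι ≫ t)
    exact (Units.mapEquiv (RingEquiv.ofBijective _ hb).toMulEquiv).bijective
  have key : ∀ a, appU (baseChangeSnd c ψ) e (appU (pullback.snd c t) le_rfl a) =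
      appU (pullback.snd c (V.ι ≫ t)) (le_refl (pullback.snd c (V.ι ≫ t) ⁻¹ᵁ ⊤))
        (appU V.ι e' a) := fun a => by
    rw [appU_appU, appU_appU]
    exact Atlas.appU_congr (bcSnd_snd ψ) _ _ a
  refine (Function.Bijective.of_comp_iff' hf _).1 ?_
  rw [show (appU (baseChangeSnd c ψ) e ∘ appU (pullback.snd c t) le_rfl) = _ from funext key]
  exact hs.comp hj

theorem bcPic_bcPic (φ : SchemeHomOver t' t) (ψ : SchemeHomOver t'' t')
    (a : LinePic (pullback c t)) : bcPic c ψ (bcPic c φ a) = bcPic c (postComp φ ψ) a := by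
  show LinePic.pullback _ (LinePic.pullback _ a) = LinePic.pullback _ a
  rw [LinePic.pullback_pullback, baseChangeSnd_comp]

theorem bcPic_id (h : SchemeHomOver t t) (hh : h.1 = 𝟙 T) (a : LinePic (pullback c t)) :
    bcPic c h a = a := by
  obtain rfl : h = ⟨𝟙 T, Category.id_comp t⟩ := Subtype.ext hh
  show LinePic.pullback _ a = a
  rw [baseChangeSnd_id, LinePic.pullback_id]
  rfl

theorem rigHom_bcPic (φ : SchemeHomOver t' t) (a : LinePic (pullback c t)) :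
    rigHom c ε t' (bcPic c φ a) = LinePic.pullback φ.1 (rigHom c ε t a) := by
  show LinePic.pullback _ (LinePic.pullback _ a) = LinePic.pullback _ (LinePic.pullback _ a)
  rw [LinePic.pullback_pullback, LinePic.pullback_pullback, rigSection_baseChangeSnd]

theorem rigHom_bcPic_eq_one (φ : SchemeHomOver t' t) {a : LinePic (pullback c t)}
    (ha : rigHom c ε t a = 1) : rigHom c ε t' (bcPic c φ a) = 1 := by
  rw [rigHom_bcPic, ha, map_one]

theorem rigSection_snd (t : T ⟶ Spec (CommRingCat.of k)) :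
    rigSection c t ε ≫ pullback.snd c t = 𝟙 T := pullback.lift_snd _ _ _

theorem eq_of_local (hu : GlobalUnits c) (t : T ⟶ Spec (CommRingCat.of k)) (𝒰 : T.OpenCover.{u})
    (a b : LinePic (pullback c t)) (ha : rigHom c ε t a = 1) (hb : rigHom c ε t b = 1)
    (h : ∀ i, bcPic c (⟨𝒰.f i, rfl⟩ : SchemeHomOver (𝒰.f i ≫ t) t) a =
      bcPic c (⟨𝒰.f i, rfl⟩ : SchemeHomOver (𝒰.f i ≫ t) t) b) : a = b := by
  rw [← div_eq_one]
  obtain ⟨L, hL⟩ := LinePic.mk_surjective (a / b)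
  have hr : rigHom c ε t (LinePic.mk L) = 1 := by rw [hL, map_div, ha, hb, div_one]
  obtain ⟨r⟩ := (nonempty_rigid_iff _ L).1 hr
  obtain ⟨e⟩ := Atlas.nonempty_triv_of_local (hu.unitsFromBase t) (rigSection_snd t)
    (Atlas.covers_ofSys L ⊤) r (fun i => (𝒰.f i).opensRange)
    (by rw [𝒰.iSup_opensRange]) fun i => by
      haveI : IsOpenImmersion (baseChangeSnd c
        (⟨𝒰.f i, rfl⟩ : SchemeHomOver (𝒰.f i ≫ t) t)) := isOpenImmersion_bcSnd _
      rw [← opensRange_bcSnd (c := c) (⟨𝒰.f i, rfl⟩ : SchemeHomOver (𝒰.f i ≫ t) t)]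
      refine nonempty_trivial_on _ L ?_
      show bcPic c _ (LinePic.mk L) = 1
      rw [hL, map_div, h i, div_self']
  obtain ⟨e'⟩ := Atlas.IsoOn.nonempty_trans (Atlas.covers_unit _ ⊤) e (Atlas.unitIso _ ⊤)
  rw [← hL, LinePic.one_def, LinePic.mk_eq_mk]
  exact ⟨e'.toIso⟩

theorem exists_glue_cls (hu : GlobalUnits c) (t : T ⟶ Spec (CommRingCat.of k))
    (𝒰 : T.OpenCover.{u}) (a : ∀ i, LinePic (pullback c (𝒰.f i ≫ t)))
    (ha : ∀ i, rigHom c ε (𝒰.f i ≫ t) (a i) = 1)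
    (hcomp : ∀ i j,
      bcPic c (⟨pullback.fst (𝒰.f i) (𝒰.f j), rfl⟩ :
        SchemeHomOver (pullback.fst (𝒰.f i) (𝒰.f j) ≫ 𝒰.f i ≫ t) (𝒰.f i ≫ t)) (a i) =
      bcPic c (⟨pullback.snd (𝒰.f i) (𝒰.f j), pullback.condition_assoc t |>.symm⟩ :
        SchemeHomOver (pullback.fst (𝒰.f i) (𝒰.f j) ≫ 𝒰.f i ≫ t) (𝒰.f j ≫ t)) (a j)) :
    ∃ b : LinePic (pullback c t), rigHom c ε t b = 1 ∧
      ∀ i, bcPic c (⟨𝒰.f i, rfl⟩ : SchemeHomOver (𝒰.f i ≫ t) t) b = a i := by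
  choose M hM using fun i => LinePic.mk_surjective (a i)
  let ψ : ∀ i, SchemeHomOver (𝒰.f i ≫ t) t := fun i => ⟨𝒰.f i, rfl⟩
  haveI : ∀ i, IsOpenImmersion (ψ i).1 := fun i => inferInstanceAs (IsOpenImmersion (𝒰.f i))
  haveI : ∀ i, IsOpenImmersion (baseChangeSnd c (ψ i)) := fun i => isOpenImmersion_bcSnd _
  let A : 𝒰.I₀ → Atlas (pullback c t) := fun i => Atlas.push (baseChangeSnd c (ψ i)) (M i)
  have hr : ∀ i, Nonempty (Atlas.Rigid (rigSection c t ε) (𝒰.f i).opensRange (A i)) := fun i =>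
    nonempty_rigid_push _ _ (𝒰.f i) _ (rigSection_baseChangeSnd c ε (ψ i)) (M i)
      (by rw [hM]; exact ha i)
  obtain ⟨L, hL, hLi⟩ := Atlas.exists_glue (hu.unitsFromBase t) (rigSection_snd t)
    (fun i => (𝒰.f i).opensRange) (by rw [𝒰.iSup_opensRange]) A
    (fun i => by
      rw [← opensRange_bcSnd (c := c) (ψ i)]
      exact Atlas.covers_push _ _)
    (fun i => (hr i).some) fun i j => by
      let φ : SchemeHomOver (pullback.fst (𝒰.f i) (𝒰.f j) ≫ 𝒰.f i ≫ t) (𝒰.f i ≫ t) :=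
        ⟨pullback.fst (𝒰.f i) (𝒰.f j), rfl⟩
      let φ' : SchemeHomOver (pullback.fst (𝒰.f i) (𝒰.f j) ≫ 𝒰.f i ≫ t) (𝒰.f j ≫ t) :=
        ⟨pullback.snd (𝒰.f i) (𝒰.f j), pullback.condition_assoc t |>.symm⟩
      haveI : IsOpenImmersion (postComp (ψ i) φ).1 :=
        inferInstanceAs (IsOpenImmersion (pullback.fst (𝒰.f i) (𝒰.f j) ≫ 𝒰.f i))
      haveI := isOpenImmersion_bcSnd (c := c) (postComp (ψ i) φ)
      have hh : (postComp (ψ i) φ).1.opensRange = (𝒰.f i).opensRange ⊓ (𝒰.f j).opensRange :=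
        Opens.ext (IsOpenImmersion.range_pullback_to_base_of_left _ _ |>.trans
          (by simp [Scheme.Hom.coe_opensRange]))
      rw [← hh, ← opensRange_bcSnd (c := c) (postComp (ψ i) φ)]
      have e₂ : baseChangeSnd c φ' ≫ baseChangeSnd c (ψ j) =
          baseChangeSnd c (postComp (ψ i) φ) := by
        rw [baseChangeSnd_comp]
        exact congrArg (baseChangeSnd c) (Subtype.ext pullback.condition.symm)
      refine nonempty_push_iso _ _ (baseChangeSnd c φ) (baseChangeSnd c φ')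
        (baseChangeSnd_comp c (ψ i) φ) e₂ (M i) (M j) ?_
      rw [hM, hM]
      exact hcomp i j
  refine ⟨LinePic.mk L, (nonempty_rigid_iff _ L).2 hL, fun i => ?_⟩
  rw [← hM i]
  refine pullback_eq_mk _ L (M i) ?_
  rw [opensRange_bcSnd (c := c) (ψ i)]
  exact (hLi i).some

end Fermat.Agent.Jacobian
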