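/-
The Zariski sheaf of rigidified classes satisfying a condition on the geometric fibres.
-/
import Fermat.Agent.Jacobian.Glue.BaseChange

set_option autoImplicit false
set_option linter.unusedVariables false

universe u

open CategoryTheory CategoryTheory.Limits AlgebraicGeometry AlgebraicGeometry.RelPicard
  TopologicalSpace Opposite NeronModelInfra GoodReductionJacobian

noncomputable section

namespace Fermat.Agent.Jacobian

variable {k : Type u} [Field k] {C : Scheme.{u}}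
variable (c : C ⟶ Spec (CommRingCat.of k)) (ε : SchemeHomOver (𝟙 (Spec (CommRingCat.of k))) c)

/-- A point of the functor of rigidified classes. -/
structure RigPoint (Q : GeomPred c) (T : Scheme.{u}) : Type u where
  hom : T ⟶ Spec (CommRingCat.of k)
  cls : LinePic (pullback c hom)
  rig : rigHom c ε hom cls = 1
  mem : OnFibres c Q hom cls

variable {c ε}

theorem bcPic_congr {T T' : Scheme.{u}} {t : T ⟶ Spec (CommRingCat.of k)}
    {t' : T' ⟶ Spec (CommRingCat.of k)} {φ φ' : SchemeHomOver t' t} (h : φ.1 = φ'.1)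
    (a : LinePic (pullback c t)) : bcPic c φ a = bcPic c φ' a := by
  rw [Subtype.ext h]

theorem bcPic_bcPic_eq {T T' T'' : Scheme.{u}} {t : T ⟶ Spec (CommRingCat.of k)}
    {t' : T' ⟶ Spec (CommRingCat.of k)} {t'' : T'' ⟶ Spec (CommRingCat.of k)}
    (φ : SchemeHomOver t' t) (ψ : SchemeHomOver t'' t') (χ : SchemeHomOver t'' t)
    (h : ψ.1 ≫ φ.1 = χ.1) (a : LinePic (pullback c t)) :
    bcPic c ψ (bcPic c φ a) = bcPic c χ a :=
  (bcPic_bcPic φ ψ a).trans (bcPic_congr h a)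

variable {Q : GeomPred c}

theorem geomPred_congr {T : Scheme.{u}} {t : T ⟶ Spec (CommRingCat.of k)}
    (K : Type u) [Field K] [IsAlgClosed K] {t₁ t₂ : Spec (CommRingCat.of K) ⟶ Spec (CommRingCat.of k)}
    (φ : SchemeHomOver t₁ t) (φ' : SchemeHomOver t₂ t) (h : φ.1 = φ'.1)
    (a : LinePic (pullback c t)) (hQ : Q K t₁ (bcPic c φ a)) : Q K t₂ (bcPic c φ' a) := by
  obtain ⟨f, rfl⟩ := φ
  obtain ⟨f', rfl⟩ := φ'
  obtain rfl : f = f' := h
  exact hQ

theorem OnFibres.bc {T T' : Scheme.{u}} {t : T ⟶ Spec (CommRingCat.of k)}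
    {t' : T' ⟶ Spec (CommRingCat.of k)} (φ : SchemeHomOver t' t) {a : LinePic (pullback c t)}
    (h : OnFibres c Q t a) : OnFibres c Q t' (bcPic c φ a) := by
  intro K _ _ s
  rw [bcPic_bcPic]
  exact geomPred_congr K (⟨s ≫ φ.1, rfl⟩ : SchemeHomOver ((s ≫ φ.1) ≫ t) t)
    (postComp φ (⟨s, rfl⟩ : SchemeHomOver (s ≫ t') t')) rfl a (h K (s ≫ φ.1))

theorem onFibres_of_cover {T : Scheme.{u}} {t : T ⟶ Spec (CommRingCat.of k)}
    (𝒰 : T.OpenCover.{u}) {a : LinePic (pullback c t)}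
    (h : ∀ i, OnFibres c Q (𝒰.f i ≫ t)
      (bcPic c (⟨𝒰.f i, rfl⟩ : SchemeHomOver (𝒰.f i ≫ t) t) a)) : OnFibres c Q t a := by
  intro K _ _ s
  obtain ⟨x, hx⟩ := 𝒰.covers (s (IsLocalRing.closedPoint K))
  have hs : Set.range s ⊆ Set.range (𝒰.f (𝒰.idx (s (IsLocalRing.closedPoint K)))) := by
    rintro p ⟨q, rfl⟩
    rw [Subsingleton.elim q (IsLocalRing.closedPoint K)]
    exact ⟨x, hx⟩
  have hq := h _ K (IsOpenImmersion.lift _ s hs)
  rw [bcPic_bcPic] at hq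
  exact geomPred_congr K _ _ (IsOpenImmersion.lift_fac _ _ hs) a hq

namespace RigPoint

/-- Restriction. -/
def map {T T' : Scheme.{u}} (g : T' ⟶ T) (p : RigPoint c ε Q T) : RigPoint c ε Q T' where
  hom := g ≫ p.hom
  cls := bcPic c (⟨g, rfl⟩ : SchemeHomOver (g ≫ p.hom) p.hom) p.cls
  rig := rigHom_bcPic_eq_one _ p.rig
  mem := p.mem.bc _

theorem map_eq_iff {T T' : Scheme.{u}} (g : T' ⟶ T) (p : RigPoint c ε Q T)
    (q : RigPoint c ε Q T') :
    p.map g = q ↔ ∃ h : g ≫ p.hom = q.hom,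
      bcPic c (⟨g, h⟩ : SchemeHomOver q.hom p.hom) p.cls = q.cls := by
  constructor
  · rintro rfl
    exact ⟨rfl, rfl⟩
  · rintro ⟨h, hc⟩
    obtain ⟨t, a, _, _⟩ := q
    dsimp only at h hc
    subst h
    change bcPic c (⟨g, rfl⟩ : SchemeHomOver (g ≫ p.hom) p.hom) p.cls = a at hc
    subst hc
    rfl

theorem map_id {T : Scheme.{u}} (p : RigPoint c ε Q T) : p.map (𝟙 T) = p :=
  (map_eq_iff _ _ _).2 ⟨Category.id_comp _, bcPic_id _ rfl _⟩

theorem map_map {T T' T'' : Scheme.{u}} (g : T' ⟶ T) (g' : T'' ⟶ T') (p : RigPoint c ε Q T) :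
    (p.map g).map g' = p.map (g' ≫ g) :=
  (map_eq_iff _ _ _).2 ⟨(Category.assoc _ _ _).symm, bcPic_bcPic_eq _ _ _ rfl _⟩

theorem eq_iff {T : Scheme.{u}} (p q : RigPoint c ε Q T) :
    p = q ↔ ∃ h : p.hom = q.hom,
      bcPic c (⟨𝟙 T, by rw [Category.id_comp, h]⟩ : SchemeHomOver q.hom p.hom) p.cls = q.cls := by
  constructor
  · rintro rfl
    exact ⟨rfl, bcPic_id _ rfl _⟩
  · rintro ⟨h, hc⟩
    rw [← map_id p, map_eq_iff]
    exact ⟨_, hc⟩

end RigPoint

variable (c ε Q)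

/-- The presheaf of rigidified classes. -/
def rigPresheaf : Scheme.{u}ᵒᵖ ⥤ Type u where
  obj T := RigPoint c ε Q T.unop
  map g := TypeCat.ofHom (RigPoint.map g.unop)
  map_id T := TypeCat.homEquiv.injective (funext fun p => RigPoint.map_id p)
  map_comp g g' := TypeCat.homEquiv.injective (funext fun p => (RigPoint.map_map g.unop g'.unop p).symm)

variable {c ε Q}

theorem rigPresheaf_isSheaf (hu : GlobalUnits c) :
    Presieve.IsSheaf Scheme.zariskiTopology (rigPresheaf c ε Q) := by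
  rw [Precoverage.isSheaf_toGrothendieck_iff_of_isStableUnderBaseChange_of_small.{u}]
  intro T (𝒰 : Scheme.OpenCover.{u} T)
  change Presieve.IsSheafFor _ (Presieve.ofArrows 𝒰.X 𝒰.f)
  rw [Presieve.isSheafFor_arrows_iff]
  intro x hx
  let p : ∀ i, RigPoint c ε Q (𝒰.X i) := x
  have hp : ∀ i j, (p i).map (pullback.fst (𝒰.f i) (𝒰.f j)) =
      (p j).map (pullback.snd (𝒰.f i) (𝒰.f j)) := fun i j =>
    hx i j _ (pullback.fst _ _) (pullback.snd _ _) pullback.condition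
  let t : T ⟶ Spec (CommRingCat.of k) :=
    𝒰.glueMorphisms (fun i => (p i).hom) fun i j => ((RigPoint.map_eq_iff _ _ _).1 (hp i j)).1
  have ht : ∀ i, 𝒰.f i ≫ t = (p i).hom := fun i => 𝒰.ι_glueMorphisms _ _ i
  let a : ∀ i, LinePic (pullback c (𝒰.f i ≫ t)) := fun i =>
    bcPic c (⟨𝟙 _, by rw [Category.id_comp, ht]⟩ : SchemeHomOver (𝒰.f i ≫ t) (p i).hom) (p i).cls
  obtain ⟨b, hb, hbi⟩ := exists_glue_cls (ε := ε) hu t 𝒰 a
    (fun i => rigHom_bcPic_eq_one _ (p i).rig) fun i j => by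
      obtain ⟨h, hc⟩ := (RigPoint.map_eq_iff _ _ _).1 (hp i j)
      change bcPic c _ _ = bcPic c _ (p j).cls at hc
      simp only [a]
      rw [bcPic_bcPic_eq _ _ (⟨pullback.fst (𝒰.f i) (𝒰.f j), by rw [← ht]⟩ :
          SchemeHomOver _ (p i).hom) (Category.comp_id _),
        bcPic_bcPic_eq _ _ (⟨pullback.snd (𝒰.f i) (𝒰.f j), by
          rw [← ht, pullback.condition_assoc]⟩ : SchemeHomOver _ (p j).hom) (Category.comp_id _)]
      rw [← bcPic_bcPic_eq (⟨pullback.fst (𝒰.f i) (𝒰.f j), h⟩ :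
          SchemeHomOver ((p j).map (pullback.snd (𝒰.f i) (𝒰.f j))).hom (p i).hom)
        (⟨𝟙 _, by simp [RigPoint.map, ← ht, pullback.condition_assoc]⟩ :
          SchemeHomOver (pullback.fst (𝒰.f i) (𝒰.f j) ≫ 𝒰.f i ≫ t)
            ((p j).map (pullback.snd (𝒰.f i) (𝒰.f j))).hom) _ (Category.id_comp _), hc]
      exact bcPic_bcPic_eq _ _ _ (Category.id_comp _) _
  have hmem : OnFibres c Q t b := onFibres_of_cover 𝒰 fun i => by
    rw [hbi i]
    exact (p i).mem.bc _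
  let q : RigPoint c ε Q T := ⟨t, b, hb, hmem⟩
  refine ⟨q, fun i => ?_, ?_⟩
  · show RigPoint.map (𝒰.f i) q = p i
    refine (RigPoint.map_eq_iff _ _ _).2 ⟨ht i, ?_⟩
    rw [← bcPic_bcPic_eq (⟨𝒰.f i, rfl⟩ : SchemeHomOver (𝒰.f i ≫ t) t)
      (⟨𝟙 _, by rw [Category.id_comp, ht]⟩ : SchemeHomOver (p i).hom (𝒰.f i ≫ t)) _
      (Category.id_comp _), hbi i]
    exact (bcPic_bcPic _ _ _).trans (bcPic_id _ (Category.id_comp _) _)
  · intro (q' : RigPoint c ε Q T) hq'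
    have hq'' : ∀ i, q'.map (𝒰.f i) = p i := hq'
    obtain ⟨t', b', hb', hm'⟩ := q'
    have : t' = t := 𝒰.hom_ext _ _ fun i =>
      ((RigPoint.map_eq_iff _ _ _).1 (hq'' i)).1.trans (ht i).symm
    subst this
    obtain rfl : b' = b := eq_of_local hu _ 𝒰 b' b hb' hb fun i => by
      rw [hbi i]
      obtain ⟨h, hc⟩ := (RigPoint.map_eq_iff _ _ _).1 (hq'' i)
      simp only [a]
      rw [← hc]
      exact (bcPic_bcPic_eq _ _ _ (Category.id_comp _) _).symm
    rfl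

variable (c ε Q)

/-- The sheaf of rigidified classes. -/
def rigSheaf (hu : GlobalUnits c) : Sheaf Scheme.zariskiTopology.{u} (Type u) :=
  ⟨rigPresheaf c ε Q, (isSheaf_iff_isSheaf_of_type _ _).2 (rigPresheaf_isSheaf hu)⟩

end Fermat.Agent.Jacobian
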