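/-
Proof of `GlueProperty`: a jointly surjective family of charts gives a universal rigidified class.
-/
import Fermat.Agent.Jacobian.Glue.Functor
import Fermat.Agent.Jacobian.Core.Targets

set_option autoImplicit false
set_option linter.unusedVariables false

universe u

open CategoryTheory CategoryTheory.Limits AlgebraicGeometry AlgebraicGeometry.RelPicard
  TopologicalSpace Opposite NeronModelInfra GoodReductionJacobian

noncomputable section

namespace Fermat.Agent.Jacobian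

variable {k : Type u} [Field k] {C : Scheme.{u}}
variable {c : C ⟶ Spec (CommRingCat.of k)} {ε : SchemeHomOver (𝟙 (Spec (CommRingCat.of k))) c}
variable {Q : GeomPred c}

/-- The universal point of a chart. -/
def PicChart.point (X : PicChart c ε Q) : RigPoint c ε Q X.X :=
  ⟨X.hom, X.cls, X.rig_cls, X.mem⟩

theorem PicChart.map_injective (X : PicChart c ε Q) {T : Scheme.{u}} {y y' : T ⟶ X.X}
    (h : X.point.map y = X.point.map y') : y = y' := by
  obtain ⟨hy, hc⟩ := (RigPoint.map_eq_iff _ _ _).1 h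
  exact congrArg Subtype.val (X.inj (y' ≫ X.hom) ⟨y, hy⟩ ⟨y', rfl⟩ hc)

theorem PicChart.exists_open (X : PicChart c ε Q) {T : Scheme.{u}} (p : RigPoint c ε Q T) :
    ∃ U : T.Opens, ∀ {T' : Scheme.{u}} (h : T' ⟶ T),
      Set.range h ⊆ (U : Set T) ↔ ∃ g : T' ⟶ X.X, X.point.map g = p.map h := by
  obtain ⟨U, hU⟩ := X.openImage p.hom p.cls p.rig p.mem
  refine ⟨U, fun {T'} h => (hU h).trans ⟨?_, ?_⟩⟩
  · rintro ⟨g, hg⟩
    exact ⟨g.1, (RigPoint.map_eq_iff _ _ _).2 ⟨g.2, hg⟩⟩
  · rintro ⟨g, hg⟩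
    obtain ⟨h', hc⟩ := (RigPoint.map_eq_iff _ _ _).1 hg
    exact ⟨⟨g, h'⟩, hc⟩

/-- A chart as a morphism to the functor. -/
def PicChart.natTrans (X : PicChart c ε Q) : yoneda.obj X.X ⟶ rigPresheaf c ε Q :=
  yonedaEquiv.symm X.point

theorem PicChart.natTrans_app (X : PicChart c ε Q) {T : Scheme.{u}} (g : T ⟶ X.X) :
    X.natTrans.app (op T) g = X.point.map g := rfl

theorem yonedaEquiv_symm_app_rig {T V : Scheme.{u}} (p : RigPoint c ε Q T) (h : V ⟶ T) :
    ((yonedaEquiv (F := rigPresheaf c ε Q)).symm p).app (op V) h = p.map h := rfl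

theorem PicChart.isOpenImmersion (X : PicChart c ε Q) :
    IsOpenImmersion.presheaf X.natTrans := by
  refine MorphismProperty.relative.of_exists fun T g => ?_
  obtain ⟨p, rfl⟩ : ∃ p : RigPoint c ε Q T, yonedaEquiv.symm p = g :=
    ⟨yonedaEquiv g, yonedaEquiv.symm_apply_apply g⟩
  obtain ⟨U, hU⟩ := X.exists_open p
  obtain ⟨g₀, hg₀⟩ := (hU U.ι).1 (by rw [Scheme.Opens.range_ι])
  refine ⟨U.toScheme, yoneda.map g₀, U.ι, ?_, inferInstance⟩
  refine IsPullback.of_forall_isPullback_app fun V => ?_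
  rw [Types.isPullback_iff]
  refine ⟨?_, ?_, ?_⟩
  · ext (x : V.unop ⟶ U.toScheme)
    show X.point.map (x ≫ g₀) = p.map (x ≫ U.ι)
    rw [← RigPoint.map_map, ← RigPoint.map_map, hg₀]
  · intro (x : V.unop ⟶ U.toScheme) (y : V.unop ⟶ U.toScheme) ⟨_, h⟩
    exact (cancel_mono U.ι).1 h
  · intro (y : V.unop ⟶ X.X) (h : V.unop ⟶ T) hyh
    have hyh' : X.point.map y = p.map h := hyh
    have hr : Set.range h ⊆ Set.range U.ι := by
      rw [Scheme.Opens.range_ι]
      exact (hU h).2 ⟨y, hyh'⟩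
    refine ⟨IsOpenImmersion.lift U.ι h hr, ?_, IsOpenImmersion.lift_fac _ _ hr⟩
    refine X.map_injective ?_
    show X.point.map (IsOpenImmersion.lift U.ι h hr ≫ g₀) = X.point.map y
    rw [← RigPoint.map_map, hg₀, RigPoint.map_map, IsOpenImmersion.lift_fac, hyh']

theorem PicChartsCover.isLocallySurjective {ι : Type u} {ch : ι → PicChart c ε Q}
    (hch : PicChartsCover c ε ch) :
    Presheaf.IsLocallySurjective Scheme.zariskiTopology
      (Sigma.desc fun i => (ch i).natTrans) := by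
  refine ⟨fun {T} (p : RigPoint c ε Q T) => ?_⟩
  have hpt : ∀ x : T, ∃ (i : ι) (U : T.Opens), x ∈ U ∧
      ∃ g : U.toScheme ⟶ (ch i).X, (ch i).point.map g = p.map U.ι := by
    intro x
    let K : Type u := AlgebraicClosure (T.residueField x)
    let s : Spec (CommRingCat.of K) ⟶ T :=
      Spec.map (CommRingCat.ofHom (algebraMap (T.residueField x) K)) ≫ T.fromSpecResidueField x
    obtain ⟨i, g, hg⟩ := hch K (s ≫ p.hom) _
      (rigHom_bcPic_eq_one (⟨s, rfl⟩ : SchemeHomOver (s ≫ p.hom) p.hom) p.rig) (p.mem K s)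
    obtain ⟨U, hU⟩ := (ch i).exists_open p
    have hs : Set.range s ⊆ (U : Set T) :=
      (hU s).2 ⟨g.1, (RigPoint.map_eq_iff _ _ _).2 ⟨g.2, hg⟩⟩
    refine ⟨i, U, ?_, (hU U.ι).1 (by rw [Scheme.Opens.range_ι])⟩
    have := hs ⟨IsLocalRing.closedPoint K, rfl⟩
    rwa [show s (IsLocalRing.closedPoint K) = x by
      simp only [s, Scheme.Hom.comp_apply]
      exact (T.fromSpecResidueField_apply x _)] at this
  choose i U hx g hg using hpt
  have hU : IsOpenCover U := Opens.ext (Set.eq_univ_of_forall fun x => by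
    exact SetLike.mem_coe.2 (Opens.mem_iSup.2 ⟨x, hx x⟩))
  refine GrothendieckTopology.superset_covering _ ?_
    (T.openCoverOfIsOpenCover U hU).mem_grothendieckTopology
  rw [Sieve.generate_le_iff]
  rintro V _ ⟨x⟩
  refine ⟨(Sigma.ι (fun i => yoneda.obj (ch i).X) (i x)).app _ (g x), ?_⟩
  rw [← NatTrans.comp_app_apply, Sigma.ι_desc]
  exact hg x

theorem glueProperty : GlueProperty c ε := by
  intro hu Q ι ch hch hone
  haveI : Presheaf.IsLocallySurjective Scheme.zariskiTopology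
      (Sigma.desc (fun i => (ch i).natTrans) : _ ⟶ (rigSheaf c ε Q hu).1) :=
    hch.isLocallySurjective
  obtain ⟨J, ⟨R⟩⟩ := Scheme.LocalRepresentability.isRepresentable
    (F := rigSheaf c ε Q hu) (f := fun i => (ch i).natTrans) fun i => (ch i).isOpenImmersion
  change (rigPresheaf c ε Q).RepresentableBy J at R
  let η : RigPoint c ε Q J := R.homEquiv (𝟙 J)
  have hη : ∀ {T : Scheme.{u}} (g : T ⟶ J), R.homEquiv g = η.map g := fun g => R.homEquiv_eq g
  let one : RigPoint c ε Q (Spec (CommRingCat.of k)) :=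
    ⟨𝟙 _, 1, map_one _, fun K _ _ s => by rw [map_one]; exact hone K _⟩
  obtain ⟨h0, hc0⟩ := (RigPoint.map_eq_iff _ _ _).1
    ((hη (R.homEquiv.symm one)).symm.trans (R.homEquiv.apply_symm_apply one))
  refine ⟨{ D := ⟨J, η.hom, R.homEquiv.symm one, h0⟩, cls := η.cls, rig_cls := η.rig,
            mem := η.mem, univ := ?_, zero := hc0 }⟩
  intro T t a ha hQ
  let q : RigPoint c ε Q T := ⟨t, a, ha, hQ⟩
  obtain ⟨hg, hc⟩ := (RigPoint.map_eq_iff _ _ _).1
    ((hη (R.homEquiv.symm q)).symm.trans (R.homEquiv.apply_symm_apply q))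
  refine ⟨⟨R.homEquiv.symm q, hg⟩, hc, fun g' hg' => Subtype.ext ?_⟩
  apply R.homEquiv.injective
  rw [Equiv.apply_symm_apply, hη]
  exact (RigPoint.map_eq_iff _ _ _).2 ⟨g'.2, hg'⟩

end Fermat.Agent.Jacobian
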