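/-
Proof of `RepresentsProperty`: a universal class represents the cut functor.
-/
import Fermat.Agent.Jacobian.Core.Targets

set_option autoImplicit false
set_option linter.unusedVariables false

universe u

open CategoryTheory CategoryTheory.Limits AlgebraicGeometry AlgebraicGeometry.RelPicard
  TopologicalSpace Opposite NeronModelInfra GoodReductionJacobian

noncomputable section

namespace Fermat.Agent.Jacobian

variable {k : Type u} [Field k] {C : Scheme.{u}}
variable {c : C ⟶ Spec (CommRingCat.of k)} {ε : SchemeHomOver (𝟙 (Spec (CommRingCat.of k))) c}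

theorem representsProperty (B : ModulesBridge.{u}) : RepresentsProperty c ε B := by
  intro _ Q U hcut
  have hiso : ∀ {X : Scheme.{u}} (M : X.Modules) (hM : Scheme.Modules.IsInvertible M),
      B.cls M hM = 1 ↔ Nonempty (M ≅ SheafOfModules.unit X.ringCatSheaf) := fun {X} M hM => by
    rw [← B.cls_unit X]
    exact B.cls_eq_iff _ _ _ _
  obtain ⟨M, hM, hMc⟩ := B.surj U.cls
  have hMrig : Nonempty ((Scheme.Modules.pullback (rigSection c U.D.toBase ε)).obj M ≅
      SheafOfModules.unit U.D.P.ringCatSheaf) := by
    rw [← hiso _ (hM.pullback _), B.cls_pullback _ M hM, hMc]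
    exact U.rig_cls
  let P : RigidifiedLineBundle c ε U.D.toBase := ⟨M, hM, hMrig⟩
  refine ⟨{ poincare := P, poincare_mem := ?_, univ := ?_, zero := ?_ }⟩
  · refine (hcut _ P).2 ?_
    rw [hMc]
    exact U.mem
  · intro T t L hL
    have ha : rigHom c ε t (B.cls L.L L.isInvertible) = 1 :=
      (B.cls_pullback (rigSection c t ε) L.L L.isInvertible).symm.trans
        ((hiso _ (L.isInvertible.pullback _)).2 L.rigidified)
    obtain ⟨g, hg, hgu⟩ := U.univ t _ ha ((hcut t L).1 hL)
    have key : ∀ g : SchemeHomOver t U.D.toBase,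
        Nonempty ((P.pullbackAlong g).L ≅ L.L) ↔
          bcPic c g U.cls = B.cls L.L L.isInvertible := fun g => by
      rw [← B.cls_eq_iff _ _ (P.pullbackAlong g).isInvertible L.isInvertible]
      show B.cls ((Scheme.Modules.pullback (baseChangeSnd c g)).obj M) _ = _ ↔ _
      rw [B.cls_pullback _ M hM, hMc]
      rfl
    exact ⟨g, (key g).2 hg, fun g' hg' => hgu g' ((key g').1 hg')⟩
  · rw [← B.cls_eq_iff _ _ (P.pullbackAlong _).isInvertible
      (RigidifiedLineBundle.unit (c := c) (ε := ε) (𝟙 _)).isInvertible]
    show B.cls ((Scheme.Modules.pullback (baseChangeSnd c _)).obj M) (hM.pullback _) =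
      B.cls (SheafOfModules.unit _) (Scheme.Modules.isInvertible_unit _)
    rw [B.cls_pullback _ M hM, hMc, B.cls_unit]
    exact U.zero

end Fermat.Agent.Jacobian
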